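import Fermat.Agent.Root.SummaryCMTorsionAllOrders

/-!
# Conjugates of torsion points with complex multiplication

The scalars in the image of Galois move a point of exact order `n` to as many points as there are
of them; and the field of a point has degree at most the number of its conjugates.
-/

set_option autoImplicit false
set_option linter.style.haveILetI false
set_option linter.unusedSectionVars false

noncomputable section

open WeierstrassCurve NumberField Module FA.IsogenyNF FA.CMTorsionAllOrders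
open FA.ClassNumberOne (xP yP)
open scoped WeierstrassCurve.Affine Classical

local notation "Qb" => AlgebraicClosure ℚ

namespace FA.CMHomothety

variable {F : IntermediateField ℚ Qb} [FiniteDimensional ℚ F] (E : WeierstrassCurve F)
  [E.IsElliptic]

/-- The conjugates over `F` of a torsion point are finitely many. -/
theorem orbit_finite {n : ℕ} (hn : n ≠ 0) {Q : (E.toAffine⁄Qb).Point} (hQ : n • Q = 0) :
    (Set.range fun σ : Qb ≃ₐ[F] Qb => σ • Q).Finite := by
  refine ((finite_nsmul_eq_zero (W := E) (Kb := Qb) hn).subset ?_)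
  rintro _ ⟨σ, rfl⟩
  show n • (σ • Q) = 0
  rw [Affine.Point.algEquiv_smul_def, ← map_nsmul, hQ, map_zero]

/-- **The scalars give that many conjugates.** -/
theorem card_scalarGroup_le (s : Qb) {n : ℕ} (hn : n ≠ 0) {Q : (E.toAffine⁄Qb).Point}
    (hQ : addOrderOf Q = n) :
    Nat.card (scalarGroup E s n) ≤ (Set.range fun σ : Qb ≃ₐ[F] Qb => σ • Q).ncard := by
  haveI : NeZero n := ⟨hn⟩
  have hnQ : n • Q = 0 := hQ ▸ addOrderOf_nsmul_eq_zero Q
  have hfin := orbit_finite E hn hnQ
  haveI := hfin.to_subtype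
  let f : scalarGroup E s n → Set.range fun σ : Qb ≃ₐ[F] Qb => σ • Q :=
    fun c => ⟨c.2.choose • Q, ⟨_, rfl⟩⟩
  have hf : ∀ (c : scalarGroup E s n) (z : ℤ), (z : ZMod n) = ((c : (ZMod n)ˣ) : ZMod n) →
      ((f c : (E.toAffine⁄Qb).Point)) = z • Q := fun c z hz => c.2.choose_spec.2 z hz Q hnQ
  rw [← Nat.card_coe_set_eq]
  refine Nat.card_le_card_of_injective f fun c c' h => ?_
  obtain ⟨z, hz⟩ := ZMod.intCast_surjective ((c : (ZMod n)ˣ) : ZMod n)
  obtain ⟨z', hz'⟩ := ZMod.intCast_surjective ((c' : (ZMod n)ˣ) : ZMod n)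
  have hzz : z • Q = z' • Q :=
    (hf c z hz).symm.trans ((congrArg Subtype.val h).trans (hf c' z' hz'))
  refine Subtype.ext (Units.ext ?_)
  rw [← hz, ← hz', ZMod.intCast_eq_intCast_iff_dvd_sub]
  rw [← hQ, addOrderOf_dvd_iff_zsmul_eq_zero, sub_zsmul, hzz, add_neg_cancel]

/-- **A point is defined over a field of degree at most the number of its conjugates.** -/
theorem exists_field_of_point {n : ℕ} (hn : n ≠ 0) {Q : (E.toAffine⁄Qb).Point}
    (hQ : n • Q = 0) :
    ∃ (L : IntermediateField F Qb) (_ : FiniteDimensional F L) (P : (E.toAffine⁄L).Point),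
      Affine.Point.map (W' := E.toAffine) L.val P = Q ∧
        finrank F L ≤ (Set.range fun σ : Qb ≃ₐ[F] Qb => σ • Q).ncard := by
  haveI : IsGalois ℚ Qb := FA.EC.isGalois_algebraicClosure
  haveI : Algebra.IsAlgebraic F Qb := Algebra.IsAlgebraic.tower_top (K := ℚ) F
  haveI : Normal F Qb := Normal.tower_top_of_normal ℚ F Qb
  have hfin := orbit_finite E hn hQ
  rcases Q with _ | ⟨x, y, h⟩
  · refine ⟨⊥, inferInstance, 0, map_zero _, ?_⟩
    rw [IntermediateField.finrank_bot, Nat.one_le_iff_ne_zero]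
    exact ((Set.ncard_pos hfin).mpr (Set.range_nonempty _)).ne'
  set L : IntermediateField F Qb := IntermediateField.adjoin F {x, y}
  haveI : FiniteDimensional F L :=
    IntermediateField.finiteDimensional_adjoin fun z _ => Algebra.IsIntegral.isIntegral z
  have hx : x ∈ L := IntermediateField.subset_adjoin F _ (Or.inl rfl)
  have hy : y ∈ L := IntermediateField.subset_adjoin F _ (Or.inr rfl)
  refine ⟨L, inferInstance, .some ⟨x, hx⟩ ⟨y, hy⟩
    ((Affine.baseChange_nonsingular (W := E.toAffine) (f := L.val) Subtype.val_injective _ _).1 h),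
    rfl, ?_⟩
  rw [← AlgHom.card F L Qb, ← Nat.card_eq_fintype_card, ← Nat.card_coe_set_eq]
  haveI := hfin.to_subtype
  let g : (L →ₐ[F] Qb) → Qb ≃ₐ[F] Qb := fun i =>
    AlgEquiv.ofBijective (i.liftNormal Qb) (AlgHom.normal_bijective F Qb Qb _)
  refine Nat.card_le_card_of_injective (fun i : L →ₐ[F] Qb =>
    (⟨g i • Affine.Point.some x y h, ⟨g i, rfl⟩⟩ : Set.range fun σ : Qb ≃ₐ[F] Qb =>
      σ • (Affine.Point.some x y h : (E.toAffine⁄Qb).Point))) fun i i' hii => ?_
  have hii' : g i • (Affine.Point.some x y h : (E.toAffine⁄Qb).Point) =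
      g i' • (Affine.Point.some x y h : (E.toAffine⁄Qb).Point) := congrArg Subtype.val hii
  obtain ⟨h1, e1⟩ := FA.Local.smul_some (σ := g i) E h
  obtain ⟨h2, e2⟩ := FA.Local.smul_some (σ := g i') E h
  rw [e1, e2] at hii'
  obtain ⟨hX, hY⟩ := (Affine.Point.some.injEq ..).mp hii'
  have hgi : ∀ (i : L →ₐ[F] Qb) (z : L), g i (z : Qb) = i z := fun i z =>
    i.liftNormal_commutes Qb z
  refine IntermediateField.algHom_ext_of_eq_adjoin _ rfl ?_
  rintro z (rfl | rfl)
  · rw [← hgi i ⟨_, hx⟩, ← hgi i' ⟨_, hx⟩]; exact hX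
  · rw [← hgi i ⟨_, hy⟩, ← hgi i' ⟨_, hy⟩]; exact hY

/-- **The totient bound for a point over `ℚ̄`.** -/
theorem totient_le_conjugates (ψ : F →+* ℂ) {Λ : PeriodPair} (h2 : Λ.g₂ = ψ E.c₄ / 12)
    (h3 : Λ.g₃ = ψ E.c₆ / 216)
    (hcm : ∃ ω : ℂ, (∀ m : ℤ, ω ≠ m) ∧ ∀ l ∈ Λ.lattice, ω * l ∈ Λ.lattice)
    {n : ℕ} (hn : n ≠ 0) {Q : (E.toAffine⁄Qb).Point} (hQ : addOrderOf Q = n) :
    n.totient ≤ 6 * finrank ℚ F * (Set.range fun σ : Qb ≃ₐ[F] Qb => σ • Q).ncard := by
  obtain ⟨L, _, P, hP, hdeg⟩ := exists_field_of_point E hn (hQ ▸ addOrderOf_nsmul_eq_zero Q)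
  haveI : Algebra.IsAlgebraic F Qb := Algebra.IsAlgebraic.tower_top (K := ℚ) F
  haveI : FiniteDimensional ℚ L := Module.Finite.trans F L
  haveI : FiniteDimensional ℚ (L.restrictScalars ℚ) := (inferInstance : FiniteDimensional ℚ L)
  letI := ψ.toAlgebra
  let φ : Qb →ₐ[F] ℂ := IsAlgClosed.lift
  let ψ' : L.restrictScalars ℚ →+* ℂ := φ.toRingHom.comp (L.val : L →+* Qb)
  let i : F →+* (L.restrictScalars ℚ : IntermediateField ℚ Qb) := algebraMap F L
  haveI : (E.map i).IsElliptic := inferInstance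
  have hψ : ∀ z : F, ψ' (i z) = ψ z := fun z => φ.commutes z
  have hord : addOrderOf P = n := by
    rw [← hQ, ← hP]
    exact (addOrderOf_injective (Affine.Point.map (W' := E.toAffine) L.val)
      (Affine.Point.map_injective (W' := E.toAffine) _) P).symm
  have h := FA.Summary.cm_torsion_totient_le_all (L.restrictScalars ℚ) (E.map i) ψ'
    (L := Λ) (by rw [map_c₄, hψ]; exact h2) (by rw [map_c₆, hψ]; exact h3) hcm hn (P := P) hord
  refine h.trans ?_
  rw [show finrank ℚ (L.restrictScalars ℚ : IntermediateField ℚ Qb) = finrank ℚ L from rfl,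
    ← finrank_mul_finrank ℚ F L, mul_assoc]
  exact Nat.mul_le_mul_left 6 (Nat.mul_le_mul_left _ hdeg)

end FA.CMHomothety

end
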